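import Fermat.Agent.GAL.RED.CurveBasic

/-!
# S18: the abstract glue

`Int x x'` : "`x` has an integral `q`-expansion whose reduction is `x' ≠ 0`".
-/

set_option autoImplicit false

namespace Fermat.Agent.S18

open AlgebraicCurve Fermat.Agent.GAL.RED Fermat.Agent.Lib.RR

theorem core {K F k Fb : Type*} [Field K] [Field F] [Algebra K F] [Field k] [Field Fb] [Algebra k Fb]
    [HasPrincipalDivisors K F]
    (r : Place K F → Place k Fb)
    (Int : F → Fb → Prop)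
    (hInt_one : Int 1 1)
    (hInt_mul : ∀ x y x' y', Int x x' → Int y y' → Int (x * y) (x' * y'))
    (hInt_ne : ∀ x x', Int x x' → x ≠ 0 ∧ x' ≠ 0)
    (hred : ∀ x x', Int x x' → ∀ D : Divisor K F, (∀ P, D P = P.ord x) →
      ∀ Q, Finsupp.mapDomain r D Q = Q.ord x')
    (hnorm : ∀ f : F, f ≠ 0 → ∃ (c : K) (P Q : F) (P' Q' : Fb), c ≠ 0 ∧ Int P P' ∧ Int Q Q' ∧
      f * Q = algebraMap K F c * P)
    (hlift : ∀ x' : Fb, x' ≠ 0 → ∃ (W S : F) (W' S' : Fb), Int W W' ∧ Int S S' ∧ W' = x' * S')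
    (hconst : ∀ x' : Fb, (∀ Q : Place k Fb, Q.ord x' = 0) → ∃ c : k, x' = algebraMap k Fb c)
    (m : ℕ) (hm : m ≠ 0)
    (hroot : ∀ c : k, ∃ d : k, d ^ m = c)
    (hinj : ∀ (P Q : F) (P' : Fb), Int P P' → Int Q P' →
      (∀ v : Place K F, (m : ℤ) ∣ v.ord (P / Q)) → ∃ y : F, y ^ m = P / Q)
    (D : Divisor K F) (hmD : Divisor.IsPrincipal (m • D))
    (hrD : Divisor.IsPrincipal (Finsupp.mapDomain r D)) : Divisor.IsPrincipal D := by
  classical
  have hInt_pow : ∀ x x', Int x x' → ∀ n : ℕ, Int (x ^ n) (x' ^ n) := by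
    intro x x' h n
    induction n with
    | zero => simpa using hInt_one
    | succ n ih => rw [pow_succ, pow_succ]; exact hInt_mul _ _ _ _ ih h
  obtain ⟨f, hf, hfD⟩ := hmD
  obtain ⟨g, hg, hgD⟩ := hrD
  obtain ⟨c, P, Q, P', Q', hc, hP, hQ, hfQ⟩ := hnorm f hf
  obtain ⟨hP0, hP'0⟩ := hInt_ne _ _ hP
  obtain ⟨hQ0, hQ'0⟩ := hInt_ne _ _ hQ
  have hc' : algebraMap K F c ≠ 0 := by rwa [Ne, map_eq_zero]
  have hordf : ∀ v : Place K F, v.ord f = v.ord P - v.ord Q := by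
    intro v
    have h1 := congrArg v.ord hfQ
    rw [v.ord_mul hf hQ0, v.ord_mul hc' hP0, ord_algebraMap] at h1
    omega
  have hmDeq : m • D = divOf P - divOf Q := by
    ext v
    rw [hfD v, hordf v, Finsupp.sub_apply, divOf_apply, divOf_apply]
  have hmap : ∀ w : Place k Fb, (m : ℤ) * w.ord g = w.ord P' - w.ord Q' := by
    intro w
    have h1 : Finsupp.mapDomain r (m • D) = m • Finsupp.mapDomain r D := Finsupp.mapDomain_smul _ _
    have h2 : Finsupp.mapDomain r (m • D) w = (m • Finsupp.mapDomain r D) w := by rw [h1]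
    rw [hmDeq, Finsupp.mapDomain_sub, Finsupp.sub_apply,
      hred P P' hP (divOf P) (fun v => divOf_apply P v) w,
      hred Q Q' hQ (divOf Q) (fun v => divOf_apply Q v) w, Finsupp.smul_apply, hgD w,
      nsmul_eq_mul] at h2
    exact h2.symm
  have hgm : g ^ m ≠ 0 := pow_ne_zero _ hg
  obtain ⟨c₁, hc₁⟩ := hconst (P' / (Q' * g ^ m)) (by
    intro w
    rw [ord_div w hP'0 (mul_ne_zero hQ'0 hgm), w.ord_mul hQ'0 hgm, ord_pow, hmap w]
    ring)
  obtain ⟨d, hd⟩ := hroot c₁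
  have hc₁0 : algebraMap k Fb c₁ ≠ 0 := by
    rw [← hc₁]
    exact div_ne_zero hP'0 (mul_ne_zero hQ'0 hgm)
  have hd0 : algebraMap k Fb d ≠ 0 := by
    intro h0
    apply hc₁0
    rw [← hd, map_pow, h0, zero_pow hm]
  have hP'eq : P' = Q' * (algebraMap k Fb d * g) ^ m := by
    rw [mul_pow, ← map_pow, hd, ← hc₁]
    field_simp
  obtain ⟨W, S, W', S', hW, hS, hWS⟩ := hlift (algebraMap k Fb d * g) (mul_ne_zero hd0 hg)
  obtain ⟨hW0, hW'0⟩ := hInt_ne _ _ hW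
  obtain ⟨hS0, hS'0⟩ := hInt_ne _ _ hS
  have hPn : Int (P * S ^ m) (P' * S' ^ m) := hInt_mul _ _ _ _ hP (hInt_pow _ _ hS m)
  have hQn : Int (Q * W ^ m) (P' * S' ^ m) := by
    have h1 : P' * S' ^ m = Q' * W' ^ m := by
      rw [hWS, mul_pow, hP'eq]; ring
    rw [h1]
    exact hInt_mul _ _ _ _ hQ (hInt_pow _ _ hW m)
  have hSm : S ^ m ≠ 0 := pow_ne_zero _ hS0
  have hWm : W ^ m ≠ 0 := pow_ne_zero _ hW0
  have hord : ∀ v : Place K F, v.ord (P * S ^ m / (Q * W ^ m)) =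
      (m : ℤ) * (D v + v.ord S - v.ord W) := by
    intro v
    have h1 : (m : ℤ) * D v = v.ord P - v.ord Q := by
      rw [← hordf v, ← hfD v, Finsupp.smul_apply, nsmul_eq_mul]
    rw [ord_div v (mul_ne_zero hP0 hSm) (mul_ne_zero hQ0 hWm), v.ord_mul hP0 hSm,
      v.ord_mul hQ0 hWm, ord_pow, ord_pow]
    linear_combination -h1
  obtain ⟨y, hy⟩ := hinj _ _ _ hPn hQn (fun v => ⟨_, hord v⟩)
  have hy0 : y ≠ 0 := by
    rintro rfl
    rw [zero_pow hm] at hy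
    exact div_ne_zero (mul_ne_zero hP0 hSm) (mul_ne_zero hQ0 hWm) hy.symm
  refine ⟨y * W / S, div_ne_zero (mul_ne_zero hy0 hW0) hS0, fun v => ?_⟩
  have h1 := hord v
  rw [← hy, ord_pow] at h1
  have hm' : (m : ℤ) ≠ 0 := by exact_mod_cast hm
  have h2 := mul_left_cancel₀ hm' h1
  rw [ord_div v (mul_ne_zero hy0 hW0) hS0, v.ord_mul hy0 hW0, h2]
  ring

end Fermat.Agent.S18
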